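import Fermat.Agent.DSG.GenE
import Fermat.Agent.FrobDens.Fixed

/-!
# `GenStatement`
-/

set_option autoImplicit false
set_option linter.unusedSectionVars false
set_option linter.style.haveILetI false

noncomputable section

namespace Fermat.Agent.DSG

open ModularCurve Fermat.Agent.ModFun Fermat.Agent.AnJac AlgebraicCurve IsLocalRing
open Fermat.Agent.HeckeQ CongruenceSubgroup MatrixGroups Matrix
open Fermat.Agent.AnJacH Fermat.Agent.DS1 Fermat.Agent.DS4 Fermat.Agent.DSB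

local notation "Qbar" => AlgebraicClosure ℚ
local notation "GQ" => (AlgebraicClosure ℚ ≃ₐ[ℚ] AlgebraicClosure ℚ)

variable {m : ℕ} [NeZero m]

variable (m) in
lemma exists_z : ∃ z : Qbar, ιQ z = xi m 1 ∧ IsPrimitiveRoot z m := by
  obtain ⟨z0, h0⟩ := (hasPrim_Qbar m).ex
  have h1 : IsPrimitiveRoot (z0 : Qbar) m := IsPrimitiveRoot.coe_units_iff.mpr h0
  have h2 : IsPrimitiveRoot (ιQ (z0 : Qbar)) m := h1.map_of_injective ιQ.injective
  obtain ⟨i, -, hi, h⟩ := h2.isPrimitiveRoot_iff.mp (xi_prim (N := m))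
  refine ⟨(z0 : Qbar) ^ i, by rw [map_pow, h], h1.pow_of_coprime i hi⟩

section A

variable {A : ValuationSubring Qbar} {q : ℕ}

/-- reduction of roots of unity -/
lemma prim_red (hq : q.Prime) (hA : A.LiesOverPrime q) (hqm : ¬ q ∣ m) {z : A}
    (hz : IsPrimitiveRoot z m) : IsPrimitiveRoot (residue A z) m := by
  have := FrobDens.charP_residueField A hq hA
  have hm0 : (m : ResidueField A) ≠ 0 := by
    rw [Ne, CharP.cast_eq_zero_iff (ResidueField A) q]
    exact hqm
  have : NeZero (m : ResidueField A) := ⟨hm0⟩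
  have : NeZero (m : A) := ⟨fun h => hm0 (by rw [← map_natCast (residue A), h, map_zero])⟩
  have h1 := Polynomial.isRoot_cyclotomic_iff.mpr hz
  rw [← Polynomial.isRoot_cyclotomic_iff, Polynomial.IsRoot.def,
    ← Polynomial.map_cyclotomic m (residue A), Polynomial.eval_map_apply, h1, map_zero]

lemma exists_inv {x : A} (hx : residue A x ≠ 0) : ∃ y : A, (y : Qbar) = (x : Qbar)⁻¹ := by
  rw [residue_ne_zero_iff_isUnit] at hx
  obtain ⟨y, hy⟩ := hx.exists_right_inv
  refine ⟨y, ?_⟩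
  have h1 : (x : Qbar) * y = 1 := congrArg Subtype.val hy
  exact eq_inv_of_mul_eq_one_right h1

lemma coe_zp (z : A) (a : (ZMod m)ˣ) : ((zp z a : A) : Qbar) = zp (z : Qbar) a := by
  rw [zp, zp]
  exact map_pow A.subtype _ _

lemma zp_two {R : Type*} [Monoid R] {w : R} (hw : w ^ m = 1) {u2 : (ZMod m)ˣ}
    (hu2 : (u2 : ZMod m) = 2) (a : (ZMod m)ˣ) : zp w (u2 * a) = zp w a ^ 2 := by
  rw [zp, zp, ← pow_mul]
  have h1 : ((u2 * a : (ZMod m)ˣ) : ZMod m).val ≡ (a : ZMod m).val * 2 [MOD m] := by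
    rw [← ZMod.natCast_eq_natCast_iff]
    push_cast
    rw [ZMod.natCast_zmod_val, ZMod.natCast_zmod_val, hu2, mul_comm]
  rw [pow_eq_pow_mod _ hw, h1, ← pow_eq_pow_mod _ hw]

lemma res_zp (z : A) (a : (ZMod m)ˣ) : residue A (zp z a) = zp (residue A z) a := by
  rw [zp, zp, map_pow]

end A

/-! ### elements over `Qbar` -/

section elt

variable (hm : 2 < m) (hΓ : Adm (m * m) (GB m)) {z : Qbar} (hz : ιQ z = xi m 1)

/-- the elements -/
def W (a b : (ZMod m)ˣ) : FG hΓ ιQ := ⟨Ks z a * Ks z b ^ 11 * DeltaInvSer Qbar, by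
  rw [mem_FG, map_mul, map_mul, map_pow, coeffMap_Ks, coeffMap_Ks, coeffMap_DeltaInvSer, hz,
    ← coe_E hm hΓ]
  exact (E hm hΓ a b).2⟩

lemma coe_W (a b : (ZMod m)ˣ) : (W hm hΓ hz a b : LaurentSeries Qbar) =
    Ks z a * Ks z b ^ 11 * DeltaInvSer Qbar := rfl

lemma toC_W (a b : (ZMod m)ˣ) : toC hΓ ιQ (W hm hΓ hz a b) = E hm hΓ a b := by
  apply Subtype.ext
  rw [coe_toC, coe_W, map_mul, map_mul, map_pow, coeffMap_Ks, coeffMap_Ks, coeffMap_DeltaInvSer, hz,
    coe_E]

lemma diaK_W (g : Gamma0 (m * m)) (a b : (ZMod m)ˣ) :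
    diaK ιQ (isGen_E hm hΓ) g (W hm hΓ hz a b) = W hm hΓ hz (a * dg g) (b * dg g) := by
  apply toC_inj hΓ ιQ
  rw [toC_diaK, toC_W, toC_W, dia_E]

end elt

theorem genStatement : GenStatement := by
  intro m _ hm hΓ
  have hm2 : 2 < m := by omega
  refine ⟨E hm2 hΓ 1 1, isGen_E hm2 hΓ, MfG_le_QZ hm2 hΓ, fun q hq hqm A hA => ?_⟩
  obtain ⟨z, hz, hzp⟩ := exists_z m
  have hchar := FrobDens.charP_residueField A hq hA
  haveI : IsAlgClosed (ResidueField A) := GoodRed.isAlgClosed_residueField A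
  have hzA : z ∈ A := GalRep.mem_of_pow_eq_one (NeZero.ne m) hzp.pow_eq_one
  obtain ⟨zA, hzA⟩ : ∃ zA : A, (zA : Qbar) = z := ⟨⟨z, hzA⟩, rfl⟩
  have hzA' : IsPrimitiveRoot zA m := by
    refine IsPrimitiveRoot.of_map_of_injective (f := A.subtype) ?_ A.subtype_injective
    change IsPrimitiveRoot (zA : Qbar) m
    rw [hzA]
    exact hzp
  have hzr := prim_red hq hA hqm hzA'
  set zr := residue A zA with hzr'
  have hcoe : ∀ t : A, ∀ a : (ZMod m)ˣ, coeffMap A.subtype (kL t (zp zA a) (zp zA (-a))) =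
      kL (t : Qbar) (zp z a) (zp z (-a)) := fun t a => by
    rw [coeffMap_kL]
    change kL (t : Qbar) ((zp zA a : A) : Qbar) ((zp zA (-a) : A) : Qbar) = _
    rw [coe_zp, coe_zp, hzA]
  have hres : ∀ t : A, ∀ a : (ZMod m)ˣ, coeffMap (residue A) (kL t (zp zA a) (zp zA (-a))) =
      kL (residue A t) (zp zr a) (zp zr (-a)) := fun t a => by
    rw [coeffMap_kL, res_zp, res_zp]
  have hsq : ∀ a : (ZMod m)ˣ, residue A (zp zA a ^ 2 - 1) ≠ 0 := fun a => by
    rw [map_sub, map_pow, map_one, res_zp]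
    exact sub_ne_zero.mpr (zp_pow_ne_one hzr a two_pos hm2)
  rcases eq_or_ne q 2 with rfl | hq2
  · -- characteristic two
    have h2r : (2 : ResidueField A) = 0 := CharP.cast_eq_zero (ResidueField A) 2
    obtain ⟨u2, hu2⟩ : IsUnit (2 : ZMod m) := by
      have : ((2 : ℕ) : ZMod m) = 2 := by norm_num
      rw [← this, ZMod.isUnit_iff_coprime]
      exact (Nat.Prime.coprime_iff_not_dvd hq).mpr hqm
    have ht : ∀ a : (ZMod m)ˣ, ∃ t : A, (t : Qbar) + 2⁻¹ = t0 (zp z a) := by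
      intro a
      obtain ⟨y, hy⟩ := exists_inv (hsq a)
      refine ⟨(2 * zp zA a + 1) * y, ?_⟩
      have e : (((2 * zp zA a + 1) * y : A) : Qbar) =
          (2 * ((zp zA a : A) : Qbar) + 1) * (y : Qbar) := rfl
      have e2 : ((zp zA a ^ 2 - 1 : A) : Qbar) = ((zp zA a : A) : Qbar) ^ 2 - 1 := rfl
      rw [e, hy, e2, coe_zp, hzA, t0]
      have h3 : zp z a ^ 2 - 1 ≠ 0 := sub_ne_zero.mpr (zp_pow_ne_one hzp a two_pos hm2)
      field_simp
      ring
    choose t ht using ht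
    set y : (ZMod m)ˣ → LaurentSeries (ResidueField A) := fun a =>
      kL (residue A (t a)) (zp zr a) (zp zr (-a)) with hy
    refine ⟨(W hm2 hΓ hz 1 u2 - W hm2 hΓ hz u2 u2) / (2 * W hm2 hΓ hz u2 u2),
      fun g => y (dg g) - y (u2 * dg g), fun g => ?_, fun g hg => ?_⟩
    · have hR : ∀ a : (ZMod m)ˣ, Rd A (kL (t a : Qbar) (zp z a) (zp z (-a))) (y a) := fun a => by
        have h1 := GoodRed.LR.of (π := residue A) (kL (t a) (zp zA a) (zp zA (-a)))
        rw [hcoe, hres] at h1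
        exact h1
      have hK : ∀ a : (ZMod m)ˣ, Ks z a = kL (t a : Qbar) (zp z a) (zp z (-a)) +
          HahnSeries.C (2⁻¹ : Qbar) := fun a => by
        rw [Ks, ← ht, kL_add]
      have h2C : (2 : LaurentSeries Qbar) * HahnSeries.C (2⁻¹ : Qbar) = 1 := by
        have : (2 : LaurentSeries Qbar) = HahnSeries.C (2 : Qbar) := by rw [map_ofNat]
        rw [this, ← map_mul, mul_inv_cancel₀ two_ne_zero, map_one]
      have h2A : Rd A 2 0 := by
        have h1 := GoodRed.LR.add (GoodRed.LR.one (residue A)) (GoodRed.LR.one (residue A))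
        have e : (1 + 1 : LaurentSeries (ResidueField A)) = 0 := by
          have : (1 + 1 : LaurentSeries (ResidueField A)) =
            HahnSeries.C (2 : ResidueField A) := by rw [map_ofNat]; norm_num
          rw [this, h2r, map_zero]
        rw [e, one_add_one_eq_two] at h1
        exact h1
      have hden : ∀ a : (ZMod m)ˣ, Rd A (2 * Ks z a) 1 := fun a => by
        have h1 := GoodRed.LR.add (Rd.mul h2A (hR a)) Rd.one
        rw [zero_mul, zero_add] at h1
        rw [hK, mul_add, h2C]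
        exact h1
      have hnum : ∀ a b : (ZMod m)ˣ, Rd A (Ks z a - Ks z b) (y a - y b) := fun a b => by
        have h1 := GoodRed.LR.add (hR a) (GoodRed.LR.neg (hR b))
        rw [hK, hK, add_sub_add_right_eq_sub, sub_eq_add_neg, sub_eq_add_neg]
        exact h1
      have h1 := Rd.div' (hnum (dg g) (u2 * dg g)) (hden (u2 * dg g)) one_ne_zero
      rw [div_one] at h1
      have e : (diaK ιQ (isGen_E hm2 hΓ) g ((W hm2 hΓ hz 1 u2 - W hm2 hΓ hz u2 u2) /
          (2 * W hm2 hΓ hz u2 u2)) : LaurentSeries Qbar) =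
          (Ks z (dg g) - Ks z (u2 * dg g)) / (2 * Ks z (u2 * dg g)) := by
        rw [map_div₀, map_sub, map_mul, map_ofNat, diaK_W, diaK_W, one_mul]
        have e2 : (((W hm2 hΓ hz (dg g) (u2 * dg g) - W hm2 hΓ hz (u2 * dg g) (u2 * dg g)) /
          (2 * W hm2 hΓ hz (u2 * dg g) (u2 * dg g)) : FG hΓ ιQ) : LaurentSeries Qbar) =
          ((W hm2 hΓ hz (dg g) (u2 * dg g) : LaurentSeries Qbar) -
            (W hm2 hΓ hz (u2 * dg g) (u2 * dg g) : LaurentSeries Qbar)) /
          (2 * (W hm2 hΓ hz (u2 * dg g) (u2 * dg g) : LaurentSeries Qbar)) := rfl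
        rw [e2, coe_W, coe_W]
        have h3 : Ks z (u2 * dg g) ≠ 0 := kL_ne_zero hzp hm2 _ _
        have h4 := DeltaInvSer_ne Qbar
        have h5 : (2 : LaurentSeries Qbar) ≠ 0 := by
          intro h0
          rw [h0, zero_mul] at h2C
          exact zero_ne_one h2C
        rw [div_eq_div_iff (by positivity) (by positivity)]
        ring
      rw [e]
      exact h1
    · have h1 : dg (1 : Gamma0 (m * m)) = 1 := map_one _
      simp only [h1] at hg
      have hc : ∀ n : ℕ, n ≠ 0 → ∀ a : (ZMod m)ˣ, (y a - y (u2 * a)).coeff (n : ℤ) =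
          -(eg (zp zr a) (zp zr a)⁻¹ n - eg (zp zr a ^ 2) (zp zr a ^ 2)⁻¹ n) := fun n hn a => by
        rw [HahnSeries.coeff_sub, hy]
        simp only
        rw [kL_coeff _ _ _ hn, kL_coeff _ _ _ hn, zp_neg hzr.pow_eq_one, zp_neg hzr.pow_eq_one,
          zp_two hzr.pow_eq_one hu2]
        ring
      have h3 : ∀ n : ℕ, n ≠ 0 → eg (zp zr (dg g)) (zp zr (dg g))⁻¹ n -
          eg (zp zr (dg g) ^ 2) (zp zr (dg g) ^ 2)⁻¹ n =
          eg (zp zr (1 : (ZMod m)ˣ)) (zp zr (1 : (ZMod m)ˣ))⁻¹ n -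
            eg (zp zr (1 : (ZMod m)ˣ) ^ 2) (zp zr (1 : (ZMod m)ˣ) ^ 2)⁻¹ n := fun n hn => by
        have h4 := congrArg (fun F => HahnSeries.coeff F (n : ℤ)) hg
        simp only [hc n hn] at h4
        exact neg_inj.mp h4
      have hinj : ∀ x y : ResidueField A, x ^ 2 = y ^ 2 → x = y := fun x y h => by
        have h5 : (x - y) ^ 2 = 0 := by linear_combination h + (y ^ 2 - x * y) * h2r
        exact sub_eq_zero.mp (pow_eq_zero_iff two_ne_zero |>.mp h5)
      rw [mem_GH', mem_H1]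
      rcases sep_two' (zp_ne_zero hzr 1) (zp_ne_zero hzr (dg g))
        (zp_pow_ne_one hzr 1 (by norm_num) (by omega)) (zp_pow_ne_one hzr 1 (by norm_num) (by omega))
        (h3 1 one_ne_zero) (h3 3 three_ne_zero) with h4 | h4
      · exact Or.inl (zp_inj hzr (hinj _ _ h4))
      · rw [← inv_pow, ← zp_neg hzr.pow_eq_one] at h4
        exact Or.inr (zp_inj hzr (hinj _ _ h4))
  · -- odd characteristic
    have h2r : (2 : ResidueField A) ≠ 0 := by
      intro h
      have h1 : ((2 : ℕ) : ResidueField A) = 0 := by exact_mod_cast h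
      rw [CharP.cast_eq_zero_iff (ResidueField A) q] at h1
      exact hq2 ((Nat.prime_dvd_prime_iff_eq hq Nat.prime_two).mp h1)
    have ht : ∀ a : (ZMod m)ˣ, ∃ t : A, (t : Qbar) = t0 (zp z a) := by
      intro a
      obtain ⟨y, hy⟩ := exists_inv (x := 2 * (zp zA a ^ 2 - 1)) (by
        rw [map_mul, map_ofNat]
        exact mul_ne_zero h2r (hsq a))
      refine ⟨(zp zA a ^ 2 + 4 * zp zA a + 1) * y, ?_⟩
      have e : (((zp zA a ^ 2 + 4 * zp zA a + 1) * y : A) : Qbar) =
          (((zp zA a : A) : Qbar) ^ 2 + 4 * ((zp zA a : A) : Qbar) + 1) * (y : Qbar) := rfl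
      have e2 : ((2 * (zp zA a ^ 2 - 1) : A) : Qbar) = 2 * (((zp zA a : A) : Qbar) ^ 2 - 1) := rfl
      rw [e, hy, e2, coe_zp, hzA, t0, div_eq_mul_inv]
    choose t ht using ht
    set y : (ZMod m)ˣ → LaurentSeries (ResidueField A) := fun a =>
      kL (residue A (t a)) (zp zr a) (zp zr (-a)) with hy
    refine ⟨W hm2 hΓ hz 1 1, fun g => y (dg g) * y (dg g) ^ 11 * DeltaInvSer (ResidueField A),
      fun g => ?_, fun g hg => ?_⟩
    · have hR : ∀ a : (ZMod m)ˣ, Rd A (Ks z a) (y a) := fun a => by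
        have h1 := GoodRed.LR.of (π := residue A) (kL (t a) (zp zA a) (zp zA (-a)))
        rw [hcoe, hres, ht] at h1
        exact h1
      have hD : Rd A (DeltaInvSer Qbar) (DeltaInvSer (ResidueField A)) := by
        have h1 := GoodRed.LR.of (π := residue A) (DeltaInvSer A)
        rw [coeffMap_DeltaInvSer, coeffMap_DeltaInvSer] at h1
        exact h1
      rw [diaK_W, one_mul, coe_W]
      exact ((hR _).mul ((hR _).pow 11)).mul hD
    · have h1 : dg (1 : Gamma0 (m * m)) = 1 := map_one _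
      simp only [h1] at hg
      have h2 : y (dg g) ^ 12 = y 1 ^ 12 := by
        rw [pow_succ' _ 11, pow_succ' _ 11]
        exact mul_right_cancel₀ (DeltaInvSer_ne _) hg
      rw [mem_GH', mem_H1]
      rcases sep_pow h2r hzr hm2 (by norm_num : (12 : ℕ) ≠ 0) h2 with h3 | h3
      · exact Or.inl h3.symm
      · exact Or.inr (neg_eq_iff_eq_neg.mp h3.symm)

end Fermat.Agent.DSG
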