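import Fermat.Agent.DSG.Theta
import Fermat.Agent.DSB.Defs

/-!
# The generator
-/

set_option autoImplicit false
set_option linter.unusedSectionVars false

noncomputable section

namespace Fermat.Agent.DSG

open UpperHalfPlane hiding I
open Complex ModularForm MatrixGroups Matrix.SpecialLinearGroup Filter Function CongruenceSubgroup
open scoped Manifold Topology Real Matrix
open Fermat.Agent.AnJac Fermat.Agent.DimS2 Fermat.Agent.ModFun Fermat.Agent.AnJacH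
open Fermat.Agent.DS1 Fermat.Agent.DS4 Fermat.Agent.DSB ModularCurve

variable {m : ℕ} [NeZero m]

/-! ### separation -/

section sep

variable {k : Type*} [Field k]

lemma zp_inj {z : k} (hz : IsPrimitiveRoot z m) {a b : (ZMod m)ˣ} (h : zp z a = zp z b) : a = b := by
  rw [zp, zp] at h
  have h1 := hz.pow_inj (ZMod.val_lt _) (ZMod.val_lt _) h
  exact Units.ext (ZMod.val_injective m h1)

lemma zp_ne_zero {z : k} (hz : IsPrimitiveRoot z m) (a : (ZMod m)ˣ) : zp z a ≠ 0 :=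
  pow_ne_zero _ (hz.ne_zero (NeZero.ne m))

lemma zp_pow_ne_one {z : k} (hz : IsPrimitiveRoot z m) (a : (ZMod m)ˣ) {n : ℕ} (h0 : 0 < n)
    (hn : n < m) : zp z a ^ n ≠ 1 := by
  rw [zp, ← pow_mul, Ne, hz.pow_eq_one_iff_dvd, ← ZMod.natCast_eq_zero_iff]
  push_cast
  rw [ZMod.natCast_zmod_val]
  intro h
  have h1 : ((n : ℕ) : ZMod m) = 0 := by
    rw [← Units.mul_right_eq_zero a]
    exact h
  rw [ZMod.natCast_eq_zero_iff] at h1
  have := Nat.le_of_dvd h0 h1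
  omega

lemma kL_ne_zero {z : k} (hz : IsPrimitiveRoot z m) (hm : 2 < m) (a : (ZMod m)ˣ) (t : k) :
    kL t (zp z a) (zp z (-a)) ≠ 0 := by
  intro h
  have h1 := congrArg (fun F => HahnSeries.coeff F ((1 : ℕ) : ℤ)) h
  simp only [kL_coeff _ _ _ one_ne_zero, HahnSeries.coeff_zero, neg_eq_zero, eg_one] at h1
  rw [zp_neg hz.pow_eq_one] at h1
  exact cg1_ne (zp_ne_zero hz a) (zp_pow_ne_one hz a two_pos hm) h1

lemma exists_const [IsAlgClosed k] {x y : LaurentSeries k} (hy : y ≠ 0) {n : ℕ} (hn : n ≠ 0)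
    (h : x ^ n = y ^ n) : ∃ c : k, x = HahnSeries.C c * y := by
  have h1 : (x / y) ^ n = 1 := by rw [div_pow, h, div_self (pow_ne_zero n hy)]
  have h2 : IsAlgebraic k (x / y) := by
    refine ⟨Polynomial.X ^ n - 1, (Polynomial.monic_X_pow_sub_C (1 : k) hn).ne_zero, ?_⟩
    simp [h1]
  obtain ⟨c, hc⟩ := exists_algebraMap_eq h2
  refine ⟨c, ?_⟩
  rw [C_eq_algebraMap, hc, div_mul_cancel₀ _ hy]

theorem sep_pow [IsAlgClosed k] (h2 : (2 : k) ≠ 0) {z : k} (hz : IsPrimitiveRoot z m) (hm : 2 < m)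
    {a b : (ZMod m)ˣ} {s t : k} {n : ℕ} (hn : n ≠ 0)
    (h : kL s (zp z a) (zp z (-a)) ^ n = kL t (zp z b) (zp z (-b)) ^ n) : b = a ∨ b = -a := by
  obtain ⟨c, hc⟩ := exists_const (kL_ne_zero hz hm b t) hn h
  have h3 : ∀ i : ℕ, i ≠ 0 → eg (zp z a) (zp z a)⁻¹ i = c * eg (zp z b) (zp z b)⁻¹ i := by
    intro i hi
    have h4 := congrArg (fun F => HahnSeries.coeff F (i : ℤ)) hc
    simp only [HahnSeries.C_mul_eq_smul, HahnSeries.coeff_smul, kL_coeff _ _ _ hi, smul_eq_mul] at h4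
    rw [zp_neg hz.pow_eq_one, zp_neg hz.pow_eq_one] at h4
    linear_combination -h4
  rcases sep_ne_two h2 (zp_ne_zero hz a) (zp_ne_zero hz b) (zp_pow_ne_one hz a two_pos hm)
    (h3 1 one_ne_zero) (h3 2 two_ne_zero) (h3 3 three_ne_zero) with h4 | h4
  · exact Or.inl (zp_inj hz h4)
  · rw [← zp_neg hz.pow_eq_one] at h4
    exact Or.inr (zp_inj hz h4)

end sep

/-! ### the elements -/

lemma mem_H1 {x : (ZMod m)ˣ} : x ∈ H1 m ↔ x = 1 ∨ x = -1 := by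
  constructor
  · intro h
    obtain ⟨n, hn⟩ := Subgroup.mem_zpowers_iff.mp h
    rcases Int.even_or_odd' n with ⟨j, hj | hj⟩
    · left
      rw [← hn, hj, zpow_mul]
      simp
    · right
      rw [← hn, hj, zpow_add, zpow_mul]
      simp
  · rintro (rfl | rfl)
    · exact one_mem _
    · exact Subgroup.mem_zpowers _

/-- reduction -/
abbrev dg (g : Gamma0 (m * m)) : (ZMod m)ˣ := dM (m * m) m (dvd_mul_right m m) g

section gen

variable (hm : 2 < m) (hΓ : Adm (m * m) (GB m))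

include hm hΓ in
lemma isXG_Th (a b : (ZMod m)ˣ) : IsXG (m * m) (GB m) 1 (Th a b) := by
  refine IsXG.of hΓ isNHG_one (isP_Th hm a b).1.mdiff (fun γ τ => ?_) (Th_mga hm a b)
  rw [MonoidHom.one_apply, Units.val_one, one_mul]
  have h1 := Th_smul hm a b ⟨γ, hΓ.le γ.2⟩ τ
  have h2 := (mem_GH' (h := dvd_mul_right m m) (H₀ := H1 m) (⟨γ, hΓ.le γ.2⟩ : Gamma0 (m * m))).mp γ.2
  rw [mem_H1] at h2
  rcases h2 with h2 | h2
  · rw [h2, mul_one, mul_one] at h1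
    exact h1
  · rw [h2, mul_neg_one, mul_neg_one, Th_neg hm] at h1
    exact h1

/-- the elements of the function field -/
def E (a b : (ZMod m)ˣ) : MfG hΓ := ⟨lser (Th a b), lser_mem_MfG hΓ (isXG_Th hm hΓ a b)⟩

lemma rp_E (a b : (ZMod m)ˣ) :
    Rp (m * m) (GB m) (E hm hΓ a b : LaurentSeries ℂ) (Th a b) 1 :=
  ⟨isXG_Th hm hΓ a b, one_ne_zero, by rw [map_one, mul_one]; rfl⟩

lemma coe_E (a b : (ZMod m)ˣ) : (E hm hΓ a b : LaurentSeries ℂ) =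
    Ks (xi m 1) a * Ks (xi m 1) b ^ 11 * DeltaInvSer ℂ := (isP_Th hm a b).2

lemma dia_E (g : Gamma0 (m * m)) (a b : (ZMod m)ˣ) :
    dia hΓ g (E hm hΓ a b) = E hm hΓ (a * dg g) (b * dg g) := by
  refine dia_eq_of_rp hΓ g (rp_E hm hΓ a b) ?_
  have : sl (Th a b) g = Th (a * dg g) (b * dg g) := by
    funext τ
    exact Th_smul hm a b g τ
  rw [this]
  exact rp_E hm hΓ _ _

lemma exists_cyc' (σ : ℂ ≃+* ℂ) : ∃ χ : (ZMod m)ˣ, ∀ a : (ZMod m)ˣ,
    (σ : ℂ →+* ℂ) (zp (xi m 1) a) = zp (xi m 1) (a * χ) := by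
  obtain ⟨j, hj, h⟩ := exists_map_xi (N := m) σ
  refine ⟨hj.unit, fun a => ?_⟩
  rw [← xi_vd, ← xi_vd]
  change σ _ = _
  rw [h]
  apply xi_congr
  push_cast
  rw [ZMod.natCast_zmod_val, ZMod.natCast_zmod_val, mul_comm]
  rfl

lemma Ks_cyc {σ : ℂ ≃+* ℂ} {χ : (ZMod m)ˣ} (hχ : ∀ a : (ZMod m)ˣ,
    (σ : ℂ →+* ℂ) (zp (xi m 1) a) = zp (xi m 1) (a * χ)) (a : (ZMod m)ˣ) :
    coeffMap (σ : ℂ →+* ℂ) (Ks (xi m 1) a) = Ks (xi m 1) (a * χ) := by
  rw [Ks, Ks, coeffMap_kL, map_t0, hχ, hχ, neg_mul]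

lemma DeltaInvSer_ne (k : Type*) [Field k] : DeltaInvSer k ≠ 0 := by
  intro h
  have := DeltaSer_mul_inv k
  rw [h, mul_zero] at this
  exact zero_ne_one this

theorem isGen_E : IsGen hΓ (E hm hΓ 1 1) := by
  refine ⟨fun g hg => ?_, fun σ => ?_⟩
  · rw [dia_E, one_mul] at hg
    have h1 : (E hm hΓ (dg g) (dg g) : LaurentSeries ℂ) = E hm hΓ 1 1 := congrArg Subtype.val hg
    rw [coe_E, coe_E] at h1
    have h2 : Ks (xi m 1) (dg g) ^ 12 = Ks (xi m 1) (1 : (ZMod m)ˣ) ^ 12 := by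
      rw [pow_succ' _ 11, pow_succ' _ 11]
      exact mul_right_cancel₀ (DeltaInvSer_ne ℂ) h1
    rw [mem_GH', mem_H1]
    rcases sep_pow (k := ℂ) two_ne_zero xi_prim hm (by norm_num : (12 : ℕ) ≠ 0) h2 with h3 | h3
    · exact Or.inl h3.symm
    · exact Or.inr (neg_eq_iff_eq_neg.mp h3.symm)
  · obtain ⟨χ, hχ⟩ := exists_cyc' (m := m) σ
    have h1 : ∀ a b, coeffMap (σ : ℂ →+* ℂ) (E hm hΓ a b : LaurentSeries ℂ) =
        E hm hΓ (a * χ) (b * χ) := fun a b => by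
      rw [coe_E, coe_E, map_mul, map_mul, map_pow, Ks_cyc hχ, Ks_cyc hχ, coeffMap_DeltaInvSer]
    refine ⟨E hm hΓ (1 * χ) (1 * χ), h1 1 1, fun g => ?_⟩
    rw [dia_E, h1, dia_E, mul_right_comm]

lemma Ks_mem_QZ {K : Type*} [Field K] {z : K} (hz : z ^ m = 1) (a : (ZMod m)ˣ) : Ks z a ∈ QZ K :=
  kL_mem_QZ (zp_pow hz a) (zp_pow hz (-a)) _

include hm in
theorem MfG_le_QZ : MfG hΓ ≤ QZ ℂ := by
  intro u hu
  obtain ⟨d, a, ha⟩ := (isGen_E hm hΓ).exists_sum ⟨u, hu⟩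
  have h1 := congrArg Subtype.val ha
  change u = _ at h1
  rw [h1, coe_sum_pow]
  refine sum_mem fun i _ => mul_mem (FF_le_QZ (a i).2) (pow_mem ?_ i)
  rw [coe_E]
  refine mul_mem (mul_mem (Ks_mem_QZ xi_pow_N _) (pow_mem (Ks_mem_QZ xi_pow_N _) _)) ?_
  rw [← coeffMap_DeltaInvSer (Int.castRingHom ℂ)]
  exact coeffMap_mem_QZ _

end gen

end Fermat.Agent.DSG
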