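import Fermat.Agent.AnJacH.RdG
import Fermat.Agent.DS4.EisB

/-!
# The `q`-expansions of the weight one Eisenstein series over a general ring
-/

set_option autoImplicit false
set_option linter.unusedSectionVars false

noncomputable section

namespace Fermat.Agent.DSG

open ModularCurve Fermat.Agent.AnJacH Fermat.Agent.AnJac Fermat.Agent.ModFun AlgebraicCurve

section ser

variable {R S : Type*} [CommRing R] [CommRing S]

/-- the terms -/
def cg (ξ η : R) (d : ℕ) : R := 2 * (ξ ^ d - η ^ d) - (ξ ^ (2 * d) - η ^ (2 * d))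

/-- the coefficients -/
def eg (ξ η : R) (n : ℕ) : R := ∑ d ∈ n.divisors, cg ξ η d

/-- the series with constant term `t` -/
def kL (t ξ η : R) : LaurentSeries R :=
  HahnSeries.ofPowerSeries ℤ R (PowerSeries.mk fun n => if n = 0 then t else -eg ξ η n)

lemma map_cg (f : R →+* S) (ξ η : R) (d : ℕ) : f (cg ξ η d) = cg (f ξ) (f η) d := by
  simp only [cg, map_sub, map_mul, map_pow, map_ofNat]

lemma map_eg (f : R →+* S) (ξ η : R) (n : ℕ) : f (eg ξ η n) = eg (f ξ) (f η) n := by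
  simp only [eg, map_sum, map_cg]

lemma coeffMap_kL (f : R →+* S) (t ξ η : R) : coeffMap f (kL t ξ η) = kL (f t) (f ξ) (f η) := by
  rw [kL, kL, coeffMap_ofPowerSeries]
  congr 1
  ext n
  rw [PowerSeries.coeff_map, PowerSeries.coeff_mk, PowerSeries.coeff_mk]
  split_ifs
  · rfl
  · rw [map_neg, map_eg]

lemma kL_coeff (t ξ η : R) {n : ℕ} (hn : n ≠ 0) : (kL t ξ η).coeff (n : ℤ) = -eg ξ η n := by
  rw [kL, HahnSeries.ofPowerSeries_apply_coeff, PowerSeries.coeff_mk, if_neg hn]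

lemma kL_coeff_zero (t ξ η : R) : (kL t ξ η).coeff (0 : ℤ) = t := by
  have := HahnSeries.ofPowerSeries_apply_coeff (Γ := ℤ)
    (PowerSeries.mk fun n => if n = 0 then t else -eg ξ η n) 0
  rw [PowerSeries.coeff_mk, if_pos rfl] at this
  exact this

/-- change of the constant term -/
lemma kL_add (t s ξ η : R) : kL (t + s) ξ η = kL t ξ η + HahnSeries.C s := by
  have h : (HahnSeries.C s : LaurentSeries R) = HahnSeries.ofPowerSeries ℤ R (PowerSeries.C s) := by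
    rw [HahnSeries.ofPowerSeries_C]
  rw [h, kL, kL, ← map_add]
  congr 1
  ext n
  rw [map_add, PowerSeries.coeff_mk, PowerSeries.coeff_mk, PowerSeries.coeff_C]
  split_ifs
  · rfl
  · rw [add_zero]

lemma eg_one (ξ η : R) : eg ξ η 1 = cg ξ η 1 := by
  rw [eg, Nat.divisors_one, Finset.sum_singleton]

lemma eg_three (ξ η : R) : eg ξ η 3 = cg ξ η 1 + cg ξ η 3 := by
  rw [eg, Nat.Prime.divisors Nat.prime_three, Finset.sum_pair (by norm_num)]

lemma eg_two (ξ η : R) : eg ξ η 2 = cg ξ η 1 + cg ξ η 2 := by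
  rw [eg, Nat.Prime.divisors Nat.prime_two, Finset.sum_pair (by norm_num)]

end ser

/-! ### membership in `QZ` -/

section QZ

variable {K : Type*} [Field K]

/-- counting divisors in residue classes -/
def yL (m : ℕ) (a : ZMod m) : LaurentSeries ℤ :=
  HahnSeries.ofPowerSeries ℤ ℤ (PowerSeries.mk fun n => by
    classical exact if n = 0 then 0 else ∑ d ∈ n.divisors, if (d : ZMod m) = a then 1 else 0)

lemma pow_val_congr {m : ℕ} [NeZero m] {z : K} (hz : z ^ m = 1) (d : ℕ) :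
    z ^ ((d : ZMod m).val) = z ^ d := by
  rw [ZMod.val_natCast]
  exact (pow_eq_pow_mod d hz).symm

lemma ofPS_neg {T : Type*} [CommRing T] (f : PowerSeries T) {n : ℤ} (hn : n < 0) :
    (HahnSeries.ofPowerSeries ℤ T f).coeff n = 0 :=
  HahnSeries.embDomain_of_notMem_range (by
    rintro ⟨k, hk⟩
    have : (k : ℤ) = n := hk
    omega)

lemma kL_mem_QZ {m : ℕ} [NeZero m] {ξ η : K} (hξ : ξ ^ m = 1) (hη : η ^ m = 1) (t : K) :
    kL t ξ η ∈ QZ K := by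
  classical
  have h1 : kL t ξ η = HahnSeries.C t - ∑ a : ZMod m, HahnSeries.C (cg ξ η a.val) *
      coeffMap (Int.castRingHom K) (yL m a) := by
    ext n
    rw [HahnSeries.coeff_sub, HahnSeries.coeff_sum]
    have h2 : ∀ a : ZMod m, (HahnSeries.C (cg ξ η a.val) *
        coeffMap (Int.castRingHom K) (yL m a) : LaurentSeries K).coeff n =
        cg ξ η a.val * ((yL m a).coeff n : K) := fun a => by
      rw [HahnSeries.C_mul_eq_smul, HahnSeries.coeff_smul, coeffMap_coeff, smul_eq_mul]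
      rfl
    rw [Finset.sum_congr rfl fun a _ => h2 a]
    rcases lt_or_ge n 0 with hn | hn
    · have h3 : ∀ {T : Type _} [CommRing T] (f : PowerSeries T),
          (HahnSeries.ofPowerSeries ℤ T f).coeff n = 0 := fun f =>
        HahnSeries.embDomain_of_notMem_range (by
          rintro ⟨k, hk⟩
          have : (k : ℤ) = n := hk
          omega)
      have h4 : ∀ a : ZMod m, (yL m a).coeff n = 0 := fun a => by
        rw [yL]; exact h3 _
      have h5 : (HahnSeries.C t : LaurentSeries K).coeff n = 0 := by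
        rw [HahnSeries.C_apply, HahnSeries.coeff_single_of_ne hn.ne]
      rw [kL, ofPS_neg _ hn, h5]
      simp only [h4, Int.cast_zero, mul_zero, Finset.sum_const_zero, sub_zero]
    · obtain ⟨n, rfl⟩ := Int.eq_ofNat_of_zero_le hn
      have h6 : ∀ a : ZMod m, (yL m a).coeff (n : ℤ) =
          if n = 0 then 0 else ∑ d ∈ n.divisors, if (d : ZMod m) = a then 1 else 0 := fun a => by
        rw [yL, HahnSeries.ofPowerSeries_apply_coeff, PowerSeries.coeff_mk]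
      rcases eq_or_ne n 0 with rfl | hn0
      · have h7 : (HahnSeries.C t : LaurentSeries K).coeff ((0 : ℕ) : ℤ) = t := by
          rw [HahnSeries.C_apply]
          exact HahnSeries.coeff_single_same _ _
        rw [h7]
        simp only [h6, if_true, Int.cast_zero, mul_zero, Finset.sum_const_zero, sub_zero]
        exact kL_coeff_zero t ξ η
      · have h7 : (HahnSeries.C t : LaurentSeries K).coeff (n : ℤ) = 0 := by
          rw [HahnSeries.C_apply, HahnSeries.coeff_single_of_ne (by exact_mod_cast hn0)]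
        rw [h7, kL_coeff _ _ _ hn0, zero_sub]
        congr 1
        simp only [h6, if_neg hn0]
        have h8 : ∀ a : ZMod m, cg ξ η a.val *
            (((∑ d ∈ n.divisors, if (d : ZMod m) = a then (1 : ℤ) else 0 : ℤ)) : K) =
            ∑ d ∈ n.divisors, if (d : ZMod m) = a then cg ξ η a.val else 0 := fun a => by
          push_cast
          rw [Finset.mul_sum]
          refine Finset.sum_congr rfl fun d _ => ?_
          split_ifs
          · rw [mul_one]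
          · rw [mul_zero]
        rw [Finset.sum_congr rfl fun a _ => h8 a, Finset.sum_comm, eg]
        refine Finset.sum_congr rfl fun d _ => ?_
        rw [Finset.sum_ite_eq Finset.univ (d : ZMod m) (fun a => cg ξ η a.val),
          if_pos (Finset.mem_univ _)]
        have e1 := pow_val_congr hξ d
        have e2 := pow_val_congr hη d
        rw [cg, cg, mul_comm 2 d, mul_comm 2 (d : ZMod m).val, pow_mul, pow_mul, pow_mul, pow_mul,
          e1, e2]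
  rw [h1]
  have h2 : ∀ c : K, (HahnSeries.C c : LaurentSeries K) ∈ QZ K := fun c => by
    rw [C_eq_algebraMap]
    exact IntermediateField.algebraMap_mem _ _
  exact sub_mem (h2 _) (sum_mem fun a _ => mul_mem (h2 _) (coeffMap_mem_QZ _))

end QZ

/-! ### separation -/

section sep

variable {k : Type*} [Field k]

lemma cg1_eq {ξ : k} (hξ : ξ ≠ 0) :
    cg ξ ξ⁻¹ 1 = (ξ - ξ⁻¹) * (2 - (ξ + ξ⁻¹)) := by
  simp only [cg, inv_pow]; field_simp; ring

lemma cg1_ne {ξ : k} (hξ : ξ ≠ 0) (h : ξ ^ 2 ≠ 1) : cg ξ ξ⁻¹ 1 ≠ 0 := by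
  rw [cg1_eq hξ]
  refine mul_ne_zero (fun h0 => h ?_) (fun h0 => h ?_)
  · have h1 : ξ * ξ⁻¹ = 1 := mul_inv_cancel₀ hξ
    linear_combination ξ * h0 + h1
  · have h1 : ξ * ξ⁻¹ = 1 := mul_inv_cancel₀ hξ
    have h2 : (ξ - 1) ^ 2 = 0 := by linear_combination -ξ * h0 - h1
    have h3 : ξ = 1 := sub_eq_zero.mp (pow_eq_zero_iff two_ne_zero |>.mp h2)
    rw [h3, one_pow]

lemma cg2_eq {ξ : k} (hξ : ξ ≠ 0) :
    cg ξ ξ⁻¹ 2 = cg ξ ξ⁻¹ 1 * ((ξ + ξ⁻¹ + 1) ^ 2 - 1) := by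
  simp only [cg, inv_pow]; field_simp; ring

lemma cg3_eq {ξ : k} (hξ : ξ ≠ 0) :
    cg ξ ξ⁻¹ 3 = cg ξ ξ⁻¹ 1 * ((ξ + ξ⁻¹ + 1 - 2) * (ξ + ξ⁻¹ + 1) ^ 3) := by
  simp only [cg, inv_pow]; field_simp; ring

lemma eq_or_inv {ξ ξ' : k} (hξ : ξ ≠ 0) (hξ' : ξ' ≠ 0) (h : ξ' + ξ'⁻¹ = ξ + ξ⁻¹) :
    ξ' = ξ ∨ ξ' = ξ⁻¹ := by
  have h1 : (ξ' - ξ) * (ξ' - ξ⁻¹) = 0 := by
    have e1 : ξ * ξ⁻¹ = 1 := mul_inv_cancel₀ hξ
    have e2 : ξ' * ξ'⁻¹ = 1 := mul_inv_cancel₀ hξ'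
    linear_combination ξ' * h + e1 - e2
  rcases mul_eq_zero.mp h1 with h2 | h2
  · exact Or.inl (sub_eq_zero.mp h2)
  · exact Or.inr (sub_eq_zero.mp h2)

/-- separation if the characteristic is not `2` -/
theorem sep_ne_two (h2 : (2 : k) ≠ 0) {ξ ξ' : k} (hξ : ξ ≠ 0) (hξ' : ξ' ≠ 0) (h : ξ ^ 2 ≠ 1)
    {c : k} (e1 : eg ξ ξ⁻¹ 1 = c * eg ξ' ξ'⁻¹ 1) (e2 : eg ξ ξ⁻¹ 2 = c * eg ξ' ξ'⁻¹ 2)
    (e3 : eg ξ ξ⁻¹ 3 = c * eg ξ' ξ'⁻¹ 3) : ξ' = ξ ∨ ξ' = ξ⁻¹ := by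
  apply eq_or_inv hξ hξ'
  rw [eg_one, eg_one] at e1
  rw [eg_two, eg_two, cg2_eq hξ, cg2_eq hξ'] at e2
  rw [eg_three, eg_three, cg3_eq hξ, cg3_eq hξ'] at e3
  have h0 := cg1_ne hξ h
  set x := ξ + ξ⁻¹ + 1 with hx
  set y := ξ' + ξ'⁻¹ + 1 with hy
  set A := cg ξ ξ⁻¹ 1 with hA
  have f2 : x ^ 2 = y ^ 2 := by
    apply mul_left_cancel₀ h0
    linear_combination e2 - y ^ 2 * e1
  have f3 : (x - 2) * x ^ 3 = (y - 2) * y ^ 3 := by
    apply mul_left_cancel₀ h0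
    linear_combination e3 - (1 + (y - 2) * y ^ 3) * e1
  have f4 : x ^ 3 = y ^ 3 := by
    apply mul_left_cancel₀ h2
    linear_combination (x ^ 2 + y ^ 2) * f2 - f3
  have f5 : x = y := by
    rcases eq_or_ne x 0 with h3 | h3
    · rw [h3, zero_pow three_ne_zero] at f4
      rw [h3, pow_eq_zero_iff three_ne_zero |>.mp f4.symm]
    · apply mul_left_cancel₀ (pow_ne_zero 2 h3)
      linear_combination f4 - y * f2
  have f6 : y = x := f5.symm
  rw [hx, hy] at f6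
  exact add_right_cancel f6

/-- separation in characteristic `2` -/
theorem sep_two [CharP k 2] {a b : k} (h1 : a + a ^ 2 = b + b ^ 2)
    (h3 : a ^ 3 + a ^ 6 = b ^ 3 + b ^ 6) (hb : b ^ 4 ≠ b) : a = b := by
  have h2 : (2 : k) = 0 := CharP.cast_eq_zero k 2
  have h4 : (a + b) * (a + b + 1) = 0 := by
    linear_combination h1 + (b + b ^ 2 + a * b) * h2
  rcases mul_eq_zero.mp h4 with h5 | h5
  · linear_combination h5 - b * h2
  · exfalso
    apply hb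
    have h6 : a = b + 1 := by linear_combination h5 - (b + 1) * h2
    rw [h6] at h3
    linear_combination h3 - (7 * b ^ 4 + 10 * b ^ 3 + 9 * b ^ 2 + 5 * b + 1 + 3 * b ^ 5) * h2

lemma cg_two [CharP k 2] (ξ : k) (d : ℕ) : cg ξ ξ⁻¹ d = (ξ ^ 2) ^ d + ((ξ ^ 2)⁻¹) ^ d := by
  have h2 : (2 : k) = 0 := CharP.cast_eq_zero k 2
  have e1 : ξ⁻¹ ^ (2 * d) = ((ξ ^ 2)⁻¹) ^ d := by
    rw [pow_mul, inv_pow]
  rw [cg, e1, pow_mul]
  linear_combination (ξ ^ d - ξ⁻¹ ^ d - (ξ ^ 2) ^ d) * h2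

/-- separation in characteristic `2` for the coefficients -/
theorem sep_two' [CharP k 2] {ξ ξ' : k} (hξ : ξ ≠ 0) (hξ' : ξ' ≠ 0) (h6 : ξ ^ 6 ≠ 1)
    (h10 : ξ ^ 10 ≠ 1)
    (e1 : eg ξ' ξ'⁻¹ 1 - eg (ξ' ^ 2) (ξ' ^ 2)⁻¹ 1 = eg ξ ξ⁻¹ 1 - eg (ξ ^ 2) (ξ ^ 2)⁻¹ 1)
    (e3 : eg ξ' ξ'⁻¹ 3 - eg (ξ' ^ 2) (ξ' ^ 2)⁻¹ 3 = eg ξ ξ⁻¹ 3 - eg (ξ ^ 2) (ξ ^ 2)⁻¹ 3) :
    ξ' ^ 2 = ξ ^ 2 ∨ ξ' ^ 2 = (ξ ^ 2)⁻¹ := by
  have h2 : (2 : k) = 0 := CharP.cast_eq_zero k 2
  apply eq_or_inv (pow_ne_zero 2 hξ) (pow_ne_zero 2 hξ')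
  simp only [eg_one, eg_three, cg_two, pow_one] at e1 e3
  have hx : ξ ^ 2 * (ξ ^ 2)⁻¹ = 1 := mul_inv_cancel₀ (pow_ne_zero 2 hξ)
  have hy : ξ' ^ 2 * (ξ' ^ 2)⁻¹ = 1 := mul_inv_cancel₀ (pow_ne_zero 2 hξ')
  have i1 : ((ξ ^ 2) ^ 2)⁻¹ = ((ξ ^ 2)⁻¹) ^ 2 := by rw [inv_pow]
  have i2 : ((ξ' ^ 2) ^ 2)⁻¹ = ((ξ' ^ 2)⁻¹) ^ 2 := by rw [inv_pow]
  rw [i1, i2] at e1 e3
  have hb0 : ∀ x y : k, x * y = 1 → (x + y) ^ 4 = x + y → x ^ 3 = 1 ∨ x ^ 5 = 1 := by
    intro x y hxy h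
    have h3 : (x ^ 3 - 1) * (x ^ 5 - 1) = 0 := by
      have h4 : (x + y) ^ 4 = x ^ 4 + y ^ 4 := by
        linear_combination (2 * x ^ 3 * y + 3 * x ^ 2 * y ^ 2 + 2 * x * y ^ 3) * h2
      rw [h4] at h
      have h5 : x ^ 4 * y ^ 4 = 1 := by rw [← mul_pow, hxy, one_pow]
      linear_combination x ^ 4 * h - h5 + (x ^ 3) * hxy
    rcases mul_eq_zero.mp h3 with h4 | h4
    · exact Or.inl (sub_eq_zero.mp h4)
    · exact Or.inr (sub_eq_zero.mp h4)
  have hcub : ∀ x y : k, x * y = 1 → (x + y) ^ 3 + (x + y) ^ 6 =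
      x + y + (x ^ 3 + y ^ 3) - (x ^ 2 + y ^ 2 + ((x ^ 2) ^ 3 + (y ^ 2) ^ 3)) := by
    intro x y h
    have c1 : (x + y) ^ 3 = x ^ 3 + y ^ 3 + 3 * (x + y) := by linear_combination 3 * (x + y) * h
    have c2 : (x + y) ^ 6 = (x ^ 3 + y ^ 3 + 3 * (x + y)) ^ 2 := by rw [← c1]; ring
    rw [c1, c2]
    linear_combination ((x + y) + (x ^ 6 + y ^ 6) + x ^ 3 * y ^ 3 + 3 * (x ^ 3 + y ^ 3) * (x + y) +
      5 * (x ^ 2 + y ^ 2) + 9 * x * y) * h2
  generalize hgx : ξ ^ 2 = x at *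
  generalize hgy : ξ' ^ 2 = y at *
  generalize x⁻¹ = x' at *
  generalize y⁻¹ = y' at *
  refine sep_two ?_ ?_ ?_
  · linear_combination e1 + (y ^ 2 + y' ^ 2 + y * y' - x ^ 2 - x' ^ 2 - x * x') * h2
  · rw [hcub y y' hy, hcub x x' hx]
    exact e3
  · intro h
    rcases hb0 x x' hx h with h3 | h3
    · apply h6
      rw [show (6 : ℕ) = 2 * 3 by norm_num, pow_mul, hgx, h3]
    · apply h10
      rw [show (10 : ℕ) = 2 * 5 by norm_num, pow_mul, hgx, h3]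

end sep

end Fermat.Agent.DSG
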