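import Fermat.Agent.DSG.Ser

/-!
# Functions from weight one Eisenstein series
-/

set_option autoImplicit false
set_option linter.unusedSectionVars false

noncomputable section

namespace Fermat.Agent.DSG

open UpperHalfPlane hiding I
open Complex ModularForm MatrixGroups Matrix.SpecialLinearGroup Filter Function CongruenceSubgroup
open scoped Manifold Topology Real Matrix
open Fermat.Agent.AnJac Fermat.Agent.DimS2 Fermat.Agent.ModFun Fermat.Agent.AnJacH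
open Fermat.Agent.DS1 Fermat.Agent.DS4 ModularCurve

variable {m : ℕ} [NeZero m]

/-- powers -/
def zp {R : Type*} [Monoid R] (z : R) (d : (ZMod m)ˣ) : R := z ^ (d : ZMod m).val

/-- the constant term -/
def t0 {K : Type*} [Field K] (ξ : K) : K := (ξ ^ 2 + 4 * ξ + 1) / (2 * (ξ ^ 2 - 1))

lemma zp_pow {R : Type*} [Monoid R] {z : R} (hz : z ^ m = 1) (d : (ZMod m)ˣ) : zp z d ^ m = 1 := by
  rw [zp, ← pow_mul, mul_comm, pow_mul, hz, one_pow]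

lemma zp_mul_neg {R : Type*} [Monoid R] {z : R} (hz : z ^ m = 1) (d : (ZMod m)ˣ) :
    zp z d * zp z (-d) = 1 := by
  rw [zp, zp, ← pow_add]
  have h1 : m ∣ (d : ZMod m).val + ((-d : (ZMod m)ˣ) : ZMod m).val := by
    rw [← ZMod.natCast_eq_zero_iff]
    push_cast
    rw [ZMod.natCast_zmod_val, ZMod.natCast_zmod_val, add_neg_cancel]
  obtain ⟨c, hc⟩ := h1
  rw [hc, pow_mul, hz, one_pow]

lemma zp_neg {R : Type*} [Field R] {z : R} (hz : z ^ m = 1) (d : (ZMod m)ˣ) :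
    zp z (-d) = (zp z d)⁻¹ :=
  eq_inv_of_mul_eq_one_right (zp_mul_neg hz d)

lemma map_zp {R S : Type*} [Monoid R] [Monoid S] (f : R →* S) (z : R) (d : (ZMod m)ˣ) :
    f (zp z d) = zp (f z) d := map_pow f _ _

lemma map_t0 {K L : Type*} [Field K] [Field L] (f : K →+* L) (ξ : K) : f (t0 ξ) = t0 (f ξ) := by
  simp only [t0, map_div₀, map_add, map_mul, map_sub, map_pow, map_one, map_ofNat]

/-- the index -/
def vd (d : (ZMod m)ˣ) : Fin 2 → ℤ := vec ((d : ZMod m).val : ℤ)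

lemma nd_aux {a : ℤ} (h : (a : ZMod m) ≠ 0) : ND m (vec a) := by
  intro x hx
  have h1 := congrFun hx 1
  simp only [vec, Pi.sub_apply, Pi.smul_apply, Matrix.cons_val_one, Matrix.cons_val_fin_one,
    smul_eq_mul, Pi.zero_apply] at h1
  apply h
  rw [ZMod.intCast_zmod_eq_zero_iff_dvd]
  exact ⟨x 1, by linarith⟩

lemma nd (hm : 2 < m) (d : (ZMod m)ˣ) : ND m (vd d) := by
  apply nd_aux
  rw [Int.cast_natCast, ZMod.natCast_zmod_val]
  have : Fact (1 < m) := ⟨by omega⟩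
  exact d.ne_zero

lemma two_mul_unit_ne (hm : 2 < m) (d : (ZMod m)ˣ) : (2 : ZMod m) * d ≠ 0 := by
  intro h
  have h1 : (2 : ZMod m) = 0 := by
    rw [← Units.mul_left_eq_zero d]
    exact h
  have h2 : ((2 : ℕ) : ZMod m) = 0 := by exact_mod_cast h1
  rw [ZMod.natCast_eq_zero_iff] at h2
  have := Nat.le_of_dvd two_pos h2
  omega

lemma nd2 (hm : 2 < m) (d : (ZMod m)ˣ) : ND m ((2 : ℤ) • vd d) := by
  rw [vd, two_vec]
  apply nd_aux
  push_cast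
  rw [ZMod.natCast_zmod_val]
  exact two_mul_unit_ne hm d

/-- the normalized Eisenstein series -/
def Kd (d : (ZMod m)ˣ) (τ : ℍ) : ℂ := (2 * π * I)⁻¹ * Kf m (vd d) τ

lemma xi_vd (d : (ZMod m)ˣ) : xi m ((d : ZMod m).val : ℤ) = zp (xi m 1) d := by
  rw [xi_zpow, zpow_natCast, zp]

lemma hasSum_Kd (hm : 2 < m) (d : (ZMod m)ˣ) (τ : ℍ) :
    HasSum (fun n : ℕ => ec (zp (xi m 1) d) n * Complex.exp (2 * π * I * τ) ^ n) (Kd d τ) := by
  have hpi : (2 * π * I : ℂ) ≠ 0 := Complex.two_pi_I_ne_zero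
  have h1 := (hasSum_Kf (by omega : 0 < m) (nd hm d) (nd2 hm d) τ).mul_left (2 * π * I)⁻¹
  rw [xi_vd] at h1
  have e : (fun n : ℕ => ec (zp (xi m 1) d) n * Complex.exp (2 * π * I * τ) ^ n) =
      fun n : ℕ => (2 * π * I)⁻¹ * (2 * π * I * ec (zp (xi m 1) d) n *
        Complex.exp (2 * π * I * τ) ^ n) := by
    funext n
    rw [mul_assoc (2 * π * I : ℂ), inv_mul_cancel_left₀ hpi]
  rw [e]
  exact h1

lemma isP_of_hasSum {c : ℕ → ℂ} {g : ℍ → ℂ}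
    (hc : ∀ τ : ℍ, HasSum (fun n : ℕ => c n * Complex.exp (2 * π * I * τ) ^ n) (g τ)) :
    IsP g ∧ lser g = HahnSeries.ofPowerSeries ℤ ℂ (PowerSeries.mk c) := by
  have h1 : g = ef (HahnSeries.ofPowerSeries ℤ ℂ (PowerSeries.mk c)) := by
    funext τ
    rw [ef, evf_ofPowerSeries]
    have h2 : HasSum (fun n : ℕ => (PowerSeries.mk c).coeff n * (Periodic.qParam 1 τ) ^ n) (g τ) := by
      simpa [Periodic.qParam] using hc τ
    exact h2.tsum_eq.symm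
  have h3 := (pconv_of_hasSum hc).mem_convLaurent
  rw [h1]
  exact ⟨isP_ef h3, lser_ef h3⟩

lemma mk_ec {ξ : ℂ} : HahnSeries.ofPowerSeries ℤ ℂ (PowerSeries.mk (ec ξ)) = kL (t0 ξ) ξ ξ⁻¹ := by
  rw [kL]
  congr 1
  ext n
  rw [PowerSeries.coeff_mk, PowerSeries.coeff_mk, ec, t0, eg]
  split_ifs
  · rfl
  · congr 1
    refine Finset.sum_congr rfl fun d _ => ?_
    rw [cc, cg, inv_pow, inv_pow]

/-- the series of the Eisenstein series -/
def Ks {K : Type*} [Field K] (z : K) (d : (ZMod m)ˣ) : LaurentSeries K :=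
  kL (t0 (zp z d)) (zp z d) (zp z (-d))

lemma coeffMap_Ks {K L : Type*} [Field K] [Field L] (f : K →+* L) (z : K) (d : (ZMod m)ˣ) :
    coeffMap f (Ks z d) = Ks (f z) d := by
  rw [Ks, Ks, coeffMap_kL, map_t0]
  have h := fun e : (ZMod m)ˣ => map_zp (m := m) (f : K →* L) z e
  simp only [MonoidHom.coe_coe] at h
  rw [h, h]

lemma isP_Kd (hm : 2 < m) (d : (ZMod m)ˣ) : IsP (Kd d) ∧ lser (Kd d) = Ks (xi m 1) d := by
  obtain ⟨h1, h2⟩ := isP_of_hasSum (hasSum_Kd hm d)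
  refine ⟨h1, ?_⟩
  rw [h2, mk_ec, Ks, zp_neg xi_pow_N]

/-! ### the inverse of the discriminant -/

/-- the inverse of the discriminant -/
def Di : ℍ → ℂ := fun τ => (discriminant τ)⁻¹

lemma Di_eq : Di = ef (DeltaInvSer ℂ) := by
  funext τ
  rw [Di, ef, evf_DeltaInvSer]

lemma isP_Di : IsP Di ∧ lser Di = DeltaInvSer ℂ := by
  rw [Di_eq]
  exact ⟨isP_ef DeltaInvSer_mem, lser_ef DeltaInvSer_mem⟩

/-- the weight zero function -/
def Th (a b : (ZMod m)ˣ) : ℍ → ℂ := Kd a * Kd b ^ 11 * Di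

lemma isP_Th (hm : 2 < m) (a b : (ZMod m)ˣ) : IsP (Th a b) ∧
    lser (Th a b) = Ks (xi m 1) a * Ks (xi m 1) b ^ 11 * DeltaInvSer ℂ := by
  obtain ⟨h1, h2⟩ := isP_Kd hm a
  obtain ⟨h3, h4⟩ := isP_Kd hm b
  obtain ⟨h5, h6⟩ := isP_Di
  have h7 := h1.mul (h3.pow 11)
  refine ⟨h7.mul h5, ?_⟩
  rw [Th, lser_mul h7 h5, lser_mul h1 (h3.pow 11), lser_pow h3, h2, h4, h6]

/-! ### transformation -/

/-- the general product -/
def Fn (m : ℕ) (v w : Fin 2 → ℤ) (τ : ℍ) : ℂ := Kf m v τ * Kf m w τ ^ 11 * Di τ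

lemma Fn_smul (m : ℕ) (v w : Fin 2 → ℤ) (γ : SL(2,ℤ)) (τ : ℍ) :
    Fn m v w (γ • τ) = Fn m (v ᵥ* γ) (w ᵥ* γ) τ := by
  have hd : denom γ τ ≠ 0 := denom_ne_zero γ τ
  have hL := disc_isL1.apply_smul γ τ
  rw [Fn, Fn, Kf_smul, Kf_smul, Di, Di, hL]
  have h12 : (denom γ τ) ^ (12 : ℤ) = (denom γ τ) ^ 12 := by norm_cast
  rw [h12, mul_inv]
  field_simp

lemma Th_eq (a b : (ZMod m)ˣ) (τ : ℍ) :
    Th a b τ = ((2 * π * I : ℂ)⁻¹) ^ 12 * Fn m (vd a) (vd b) τ := by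
  simp only [Th, Pi.mul_apply, Pi.pow_apply, Kd, Fn]
  ring

lemma Kf_vm (hm : 2 < m) (a : (ZMod m)ˣ) (γ : Gamma0 (m * m)) :
    Kf m (vd a ᵥ* ((γ : SL(2,ℤ)) : Matrix (Fin 2) (Fin 2) ℤ)) =
      Kf m (vd (a * dM (m * m) m (dvd_mul_right m m) γ)) := by
  have hγ := γ.2
  rw [Gamma0_mem, ZMod.intCast_zmod_eq_zero_iff_dvd] at hγ
  refine Kf_congr (by omega) (nd hm _) (nd2 hm _) ?_ ?_
  · have h1 : (m : ℤ) ∣ (γ : SL(2,ℤ)) 1 0 :=
      dvd_trans (by push_cast; exact dvd_mul_right _ _) hγ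
    have e : (vd a ᵥ* ((γ : SL(2,ℤ)) : Matrix (Fin 2) (Fin 2) ℤ)) 0 -
        vd (a * dM (m * m) m (dvd_mul_right m m) γ) 0 =
        ((a : ZMod m).val : ℤ) * (γ : SL(2,ℤ)) 1 0 := by
      simp [vd, vec, Matrix.vecMul, dotProduct, Fin.sum_univ_two]
    rw [e]
    exact Dvd.dvd.mul_left h1 _
  · have e : (vd a ᵥ* ((γ : SL(2,ℤ)) : Matrix (Fin 2) (Fin 2) ℤ)) 1 -
        vd (a * dM (m * m) m (dvd_mul_right m m) γ) 1 =
        ((a : ZMod m).val : ℤ) * (γ : SL(2,ℤ)) 1 1 -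
          (((a * dM (m * m) m (dvd_mul_right m m) γ : (ZMod m)ˣ) : ZMod m).val : ℤ) := by
      simp [vd, vec, Matrix.vecMul, dotProduct, Fin.sum_univ_two]
    rw [e, ← ZMod.intCast_zmod_eq_zero_iff_dvd]
    push_cast
    rw [ZMod.natCast_zmod_val, ZMod.natCast_zmod_val, coe_dM, sub_self]

lemma Th_smul (hm : 2 < m) (a b : (ZMod m)ˣ) (γ : Gamma0 (m * m)) (τ : ℍ) :
    Th a b ((γ : SL(2,ℤ)) • τ) = Th (a * dM (m * m) m (dvd_mul_right m m) γ)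
      (b * dM (m * m) m (dvd_mul_right m m) γ) τ := by
  rw [Th_eq, Th_eq, Fn_smul, Fn, Fn, Kf_vm hm, Kf_vm hm]

lemma Kf_neg (hm : 2 < m) (a : (ZMod m)ˣ) (τ : ℍ) : Kf m (vd (-a)) τ = -Kf m (vd a) τ := by
  have h1 := Kf_smul m (vd a) (-1 : SL(2,ℤ)) τ
  have h2 : (-1 : SL(2,ℤ)) • τ = τ := by
    rw [ModularGroup.SL_neg_smul, one_smul]
  have h3 : denom ((-1 : SL(2,ℤ)) : GL (Fin 2) ℝ) τ = -1 := by
    rw [ModularGroup.denom_apply]
    simp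
  rw [h2, h3] at h1
  have h4 : Kf m (vd a ᵥ* ((-1 : SL(2,ℤ)) : Matrix (Fin 2) (Fin 2) ℤ)) = Kf m (vd (-a)) := by
    refine Kf_congr (by omega) (nd hm _) (nd2 hm _) ?_ ?_
    · simp [vd, vec, Matrix.vecMul, dotProduct, Fin.sum_univ_two]
    · have e : (vd a ᵥ* ((-1 : SL(2,ℤ)) : Matrix (Fin 2) (Fin 2) ℤ)) 1 - vd (-a) 1 =
          -((a : ZMod m).val : ℤ) - (((-a : (ZMod m)ˣ) : ZMod m).val : ℤ) := by
        simp [vd, vec, Matrix.vecMul, dotProduct, Fin.sum_univ_two]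
      rw [e, ← ZMod.intCast_zmod_eq_zero_iff_dvd]
      push_cast
      rw [ZMod.natCast_zmod_val, ZMod.natCast_zmod_val]
      push_cast
      ring
  rw [h4] at h1
  rw [h1]
  ring

lemma Th_neg (hm : 2 < m) (a b : (ZMod m)ˣ) : Th (-a) (-b) = Th a b := by
  funext τ
  rw [Th_eq, Th_eq, Fn, Fn, Kf_neg hm, Kf_neg hm]
  ring

lemma Th_mga (hm : 2 < m) (a b : (ZMod m)ˣ) : MGA (Th a b) := by
  intro δ
  have h1 : ∀ v, ND m v → ND m ((2 : ℤ) • v) → MG (Kf m v) := fun v hv hv2 =>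
    MG.of_bdd (isR_Kf (by omega) hv hv2).bdd
  have ha := h1 _ ((nd hm a).vm δ) (ND.vm2 (nd2 hm a) δ)
  have hb := h1 _ ((nd hm b).vm δ) (ND.vm2 (nd2 hm b) δ)
  have hb' : ∀ n : ℕ, MG ((Kf m (vd b ᵥ* (δ : Matrix (Fin 2) (Fin 2) ℤ))) ^ n) := by
    intro n
    induction n with
    | zero => rw [pow_zero]; exact mg_const 1
    | succ n ih => rw [pow_succ]; exact ih.mul hb
  refine (((ha.mul (hb' 11)).mul isP_Di.1.mg).const_mul (((2 * π * I : ℂ)⁻¹) ^ 12)).congr fun τ => ?_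
  rw [Th_eq, Fn_smul]
  rfl

end Fermat.Agent.DSG
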